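import Fermat.Agent.Lib.Newform.Main
import Fermat.Agent.Ribet.Spec

/-!
# NEWFORM library → row RIBET: the old/new dichotomy

`oldNew : Fermat.Agent.Ribet.Spec.OldNewStatement` (exact type requested by helper943):
a normalized eigenform of level `L` with `q ∥ L` either has `a_q² = 1` (`IsNewAt q`) or its
eigensystem away from `L` occurs at level `L / q`.
-/

set_option autoImplicit false

open CongruenceSubgroup ModularFormClass

namespace Fermat.Agent.Lib.Newform

/-- **(ON)** old/new dichotomy at `q ∥ L`. -/
theorem oldNew : Fermat.Agent.Ribet.Spec.OldNewStatement := by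
  intro L q hL hq hqL hq2 g hg
  haveI : NeZero L := ⟨hL.ne'⟩
  by_cases hocc : CuspForm.GoodEigensystemOccursAt g (L / q)
  · exact Or.inr hocc
  · exact Or.inl ((badCoeffAt L g q hq ⟨hg, hqL, hocc⟩).1 hq2)

/-- The same dichotomy in `IsNewformAt` language, with both conclusions at `q ∥ L`:
a normalized eigenform which is new at `q` has `a_q² = 1`. -/
theorem isNewAt_of_isNewformAt {L q : ℕ} [NeZero L] (hq : q.Prime) (hq2 : ¬ q ^ 2 ∣ L)
    {g : CuspForm (Gamma0 L) 2} (hg : g.IsNewformAt q) : g.IsNewAt q :=
  (badCoeffAt L g q hq hg).1 hq2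

end Fermat.Agent.Lib.Newform
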