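import Fermat.Agent.Lib.Newform.H23.QNew
import Fermat.Agent.Lib.Newform.H563.LowerU
import Fermat.Agent.Lib.Newform.H923.TraceALProof
import Fermat.Agent.Lib.Newform.H743.SpecLemma16
import Fermat.Agent.Lib.Newform.H803.MainLemma
import Fermat.Agent.Lib.Newform.H863.Raise

/-!
# Shared library NEWFORM — consumer entry point (row-lead helper23)

All Petersson-free targets of the library, closed (no hypotheses), in ONE light module
(closure: Mathlib + Prelude + `Lib/Newform/{H23,H563,H683,H743,H803,H863,H923,H958}` only).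

| theorem | statement |
|---|---|
| `newformBadPrimeCoeff N` | Prelude `CuspForm.NewformBadPrimeCoeff N` (`a_q² = 1` at `q ∥ N`, `a_q = 0` at `q² ∣ N`) |
| `badCoeffAt` | the same for `IsNewformAt q` |
| `descent` | every normalized eigenform comes from a Prelude-newform of a level `M ∣ N` |
| `stab` | a normalized eigenform of level `M` gives one of every level `C`, `M ∣ C` |
| `incl`, `raise` | the two degeneracy maps (`q`-coefficients) |
| `lemma16`, `mainLemma` | Atkin–Lehner Lemma 16 and main lemma |
| `oldEigen` | an eigenvector in the old space lowers the level |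
| `multOne`, `multOneEigen` | same-level multiplicity one for a Prelude-newform |
| `qNewKernel` | `W`, the two traces at `q ∥ N`; `U_q² = 1` and `IsNewAt q` on their kernel |
-/

set_option autoImplicit false

open CongruenceSubgroup ModularFormClass ModularForm UpperHalfPlane

namespace Fermat.Agent.Lib.Newform

theorem eigenT : H958.EigenT := H23.eigenT

theorem eigenU : H958.EigenU := H23.eigenU

theorem incl : H958.Incl := H23.incl

theorem occurs : H958.Occurs := H23.occurs

theorem lowerU : H958.LowerU := H563.lowerU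

theorem traceAL : H958.TraceAL := H923.traceAL

theorem badCoeffAt : H958.BadCoeffAt := H23.badCoeffAt_of lowerU traceAL

theorem badCoeff : H958.BadCoeff := H958.badCoeff_of badCoeffAt

/-- The Prelude target: coefficients of a newform at the primes dividing the level. -/
theorem newformBadPrimeCoeff (N : ℕ) [NeZero N] : CuspForm.NewformBadPrimeCoeff N := badCoeff N

theorem descent : H958.Descent := H958.descent

theorem stab : H958.Stab := H23.stab

theorem raise : H23.Raise := H863.raise_statement

theorem lemma16 : H23.Lemma16 := H743.lemma16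

theorem oldEigen : H23.OldEigen := H23.oldEigen

/-- **MAIN LEMMA** in `q`-coefficients (adapter around helper803's function-level theorem). -/
theorem mainLemma : H23.MainLemma := by
  intro N _ f hvan
  obtain ⟨g, hg⟩ := H803.mainLemma N 2 f (fun n hn => hvan n hn)
  refine ⟨g, fun n => ?_⟩
  classical
  -- the raised forms
  let R : ℕ → CuspForm (Gamma0 N) 2 := fun p =>
    if hp : p ∈ N.primeFactors then
      haveI : NeZero p := ⟨(Nat.mem_primeFactors.mp hp).1.ne_zero⟩
      H863.raiseLin (d := p) (M := N / p) (C := N)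
        (by rw [Nat.mul_div_cancel' (Nat.mem_primeFactors.mp hp).2.1]) (g p)
    else 0
  have hRτ : ∀ p ∈ N.primeFactors, ∀ τ : ℍ, R p τ = g p (heckeDiagMatrix p • τ) := by
    intro p hp τ
    haveI : NeZero p := ⟨(Nat.mem_primeFactors.mp hp).1.ne_zero⟩
    simp only [R, dif_pos hp]
    exact H863.raiseLin_apply _ (g p) τ
  have hRq : ∀ p ∈ N.primeFactors, ∀ m : ℕ,
      qCoeff ⇑(R p) m = if p ∣ m then qCoeff ⇑(g p) (m / p) else 0 := by
    intro p hp m
    haveI : NeZero p := ⟨(Nat.mem_primeFactors.mp hp).1.ne_zero⟩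
    simp only [R, dif_pos hp]
    exact H863.qCoeff_raiseLin _ (g p) m
  have hf : f = ∑ p ∈ N.primeFactors, R p := by
    apply DFunLike.ext
    intro τ
    rw [hg τ]
    have hsum : (∑ p ∈ N.primeFactors, R p) τ = ∑ p ∈ N.primeFactors, R p τ := by
      have hcoe : ∀ s : Finset ℕ, (⇑(∑ p ∈ s, R p) : ℍ → ℂ) = ∑ p ∈ s, ⇑(R p) := by
        intro s
        induction s using Finset.induction_on with
        | empty => simp
        | insert a s ha ih => rw [Finset.sum_insert ha, Finset.sum_insert ha, FunLike.coe_add, ih]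
      rw [hcoe, Finset.sum_apply]
    rw [hsum]
    exact Finset.sum_congr rfl (fun p hp => (hRτ p hp τ).symm)
  have hq : qCoeff ⇑f n = ∑ p ∈ N.primeFactors, qCoeff ⇑(R p) n := by
    have := congrArg (H683.coeffLin N 2 n) hf
    rw [map_sum] at this
    simpa using this
  rw [hq]
  exact Finset.sum_congr rfl (fun p hp => hRq p hp n)

theorem multOne : H23.MultOne := H23.multOne_of mainLemma

theorem multOneEigen : H23.MultOneEigen := H23.multOneEigen_of multOne

theorem qNewKernel : H23.QNewKernel := H23.qNewKernel_of traceAL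

/-- Consumer form: a normalized eigenform of the level of a newform with the same good
eigenvalues has the same coefficients at ALL `n`. -/
theorem qCoeff_eq_of_isNewform {N : ℕ} [NeZero N] {f g : CuspForm (Gamma0 N) 2}
    (hf : f.IsNewform) (hg : g.IsNormalizedEigenform)
    (h : ∀ ℓ : ℕ, ℓ.Prime → ¬ ℓ ∣ N → qCoeff ⇑g ℓ = qCoeff ⇑f ℓ) (n : ℕ) :
    qCoeff ⇑g n = qCoeff ⇑f n := by
  rw [multOneEigen N f g hf hg h]

/-- Consumer form of `newformBadPrimeCoeff` at `q ∥ N`. -/
theorem qCoeff_sq_eq_one {N : ℕ} [NeZero N] {f : CuspForm (Gamma0 N) 2} (hf : f.IsNewform)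
    {q : ℕ} (hq : q.Prime) (hqN : q ∣ N) (hq2 : ¬ q ^ 2 ∣ N) : qCoeff ⇑f q ^ 2 = 1 :=
  (newformBadPrimeCoeff N f hf q hq hqN).1 hq2

/-- Consumer form of `newformBadPrimeCoeff` at `q² ∣ N`. -/
theorem qCoeff_eq_zero_of_sq_dvd {N : ℕ} [NeZero N] {f : CuspForm (Gamma0 N) 2}
    (hf : f.IsNewform) {q : ℕ} (hq : q.Prime) (hq2 : q ^ 2 ∣ N) : qCoeff ⇑f q = 0 :=
  (newformBadPrimeCoeff N f hf q hq ((dvd_pow_self q two_ne_zero).trans hq2)).2 hq2

end Fermat.Agent.Lib.Newform
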